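import Mathlib

/-!
# FF19 / Nak : the SQUEEZE lemma, abstract form (Mathlib only)

`R` a commutative ring, `res : R →+* k` a surjective local homomorphism to a field, `ev x : R →+* K`
a jointly injective family of homomorphisms to a field ("`R` is a ring of functions").
`Φ` a matrix over `R`.  If the kernel of `Φ mod m` has dimension `≤ 1` and the kernel of `Φ` at every
point is non zero, then `Φ b = 0` for a vector `b` one of whose coordinates is `1`.
-/

set_option autoImplicit false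

namespace Fermat.Agent.FF19.Nak

open Matrix

section

variable {R S k K X m n : Type*} [CommRing R] [CommRing S] [Field k] [Field K] [Fintype m]
  [Fintype n] [DecidableEq m] [DecidableEq n]

omit [Fintype m] [DecidableEq m] [DecidableEq n] in
theorem SqueezeAbs_map_mulVec (f : R →+* S) (M : Matrix m n R) (v : n → R) :
    (M.map f) *ᵥ (f ∘ v) = f ∘ (M *ᵥ v) :=
  funext fun i => (RingHom.map_mulVec f M v i).symm

/-- `Φ` with the extra row `e_{j₀}`. -/
def SqueezeAbs_plus (Φ : Matrix m n R) (j₀ : n) : Matrix (m ⊕ Unit) n R :=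
  Matrix.fromRows Φ (Matrix.of fun _ j => if j = j₀ then 1 else 0)

omit [Fintype m] [DecidableEq m] in
theorem SqueezeAbs_plus_mulVec (f : R →+* S) (Φ : Matrix m n R) (j₀ : n) (v : n → S) :
    ((SqueezeAbs_plus Φ j₀).map f) *ᵥ v = Sum.elim ((Φ.map f) *ᵥ v) (fun _ => v j₀) := by
  funext i
  rcases i with i | i
  · simp [SqueezeAbs_plus, Matrix.mulVec, dotProduct]
  · simp [SqueezeAbs_plus, Matrix.mulVec, dotProduct, apply_ite f]

/-- a matrix over `R` whose reduction is injective has a left inverse up to a unit matrix. -/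
theorem SqueezeAbs_leftInv (res : R →+* k) (hsurj : Function.Surjective res) [IsLocalHom res]
    (Φ : Matrix m n R) (hinj : ∀ v : n → k, (Φ.map res) *ᵥ v = 0 → v = 0) :
    ∃ Ψ : Matrix n m R, IsUnit (Ψ * Φ) := by
  have hker : LinearMap.ker (Matrix.toLin' (Φ.map res)) = ⊥ := by
    rw [LinearMap.ker_eq_bot']
    intro v hv
    exact hinj v (by rwa [Matrix.toLin'_apply] at hv)
  obtain ⟨g, hg⟩ := LinearMap.exists_leftInverse_of_injective (Matrix.toLin' (Φ.map res)) hker
  choose lift hlift using hsurj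
  refine ⟨(LinearMap.toMatrix' g).map lift, ?_⟩
  have h1 : ((LinearMap.toMatrix' g).map lift).map res = LinearMap.toMatrix' g := by
    ext i j
    simp [hlift]
  have h2 : (((LinearMap.toMatrix' g).map lift) * Φ).map res = 1 := by
    rw [Matrix.map_mul, h1]
    have h3 : LinearMap.toMatrix' g * Φ.map res =
        LinearMap.toMatrix' (g ∘ₗ Matrix.toLin' (Φ.map res)) := by
      rw [LinearMap.toMatrix'_comp, LinearMap.toMatrix'_toLin']
    rw [h3, hg, LinearMap.toMatrix'_id]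
  rw [Matrix.isUnit_iff_isUnit_det]
  apply IsUnit.of_map res
  have h4 : res (((LinearMap.toMatrix' g).map lift) * Φ).det =
      ((((LinearMap.toMatrix' g).map lift) * Φ).map res).det := by
    rw [RingHom.map_det]
    rfl
  rw [h4, h2, Matrix.det_one]
  exact isUnit_one

/-- **SQUEEZE**, abstract form. -/
theorem squeezeAbs (res : R →+* k) (hsurj : Function.Surjective res) [IsLocalHom res]
    (ev : X → R →+* K) (hev : ∀ r : R, (∀ x, ev x r = 0) → r = 0)
    (Φ : Matrix m n R) (j₀ : n)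
    (h1 : ∀ v : n → k, (Φ.map res) *ᵥ v = 0 → v j₀ = 0 → v = 0)
    (h2 : ∀ x, ∃ v : n → K, v ≠ 0 ∧ (Φ.map (ev x)) *ᵥ v = 0) :
    ∃ b : n → R, Φ *ᵥ b = 0 ∧ b j₀ = 1 := by
  classical
  obtain ⟨Ψ, hU⟩ := SqueezeAbs_leftInv res hsurj (SqueezeAbs_plus Φ j₀) (by
    intro v hv
    rw [SqueezeAbs_plus_mulVec] at hv
    have e1 : (Φ.map res) *ᵥ v = 0 := by
      funext i
      exact congrFun hv (Sum.inl i)
    have e2 : v j₀ = 0 := congrFun hv (Sum.inr ())
    exact h1 v e1 e2)
  obtain ⟨U, hUe⟩ := hU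
  -- recovering `v` from `Φ⁺ v`
  have hrec : ∀ (x : X) (v : n → K),
      v = ((↑U⁻¹ : Matrix n n R).map (ev x)) *ᵥ
        ((Ψ.map (ev x)) *ᵥ (((SqueezeAbs_plus Φ j₀).map (ev x)) *ᵥ v)) := by
    intro x v
    have e3 : ((↑U⁻¹ : Matrix n n R).map (ev x)) *
        ((Ψ.map (ev x)) * ((SqueezeAbs_plus Φ j₀).map (ev x))) = 1 := by
      rw [← Matrix.map_mul, ← Matrix.map_mul, ← hUe, Units.inv_mul]
      ext i j
      simp [Matrix.one_apply, apply_ite (ev x)]
    rw [Matrix.mulVec_mulVec, Matrix.mulVec_mulVec, Matrix.mul_assoc, e3, Matrix.one_mulVec]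
  -- the candidate
  have hb : ∀ x, ∀ v : n → K, (Φ.map (ev x)) *ᵥ v = 0 → v j₀ = 1 →
      v = ev x ∘ ((↑U⁻¹ : Matrix n n R) *ᵥ (Ψ *ᵥ (Sum.elim 0 (fun _ => 1) : m ⊕ Unit → R))) := by
    intro x v hv hv1
    have e1 : ((SqueezeAbs_plus Φ j₀).map (ev x)) *ᵥ v =
        ev x ∘ (Sum.elim 0 (fun _ => 1) : m ⊕ Unit → R) := by
      rw [SqueezeAbs_plus_mulVec, hv, hv1]
      funext i
      rcases i with i | i <;> simp
    rw [← SqueezeAbs_map_mulVec, ← SqueezeAbs_map_mulVec, ← e1]
    exact hrec x v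
  -- at every point there is a normalised solution
  have hpt : ∀ x, ∃ v : n → K, (Φ.map (ev x)) *ᵥ v = 0 ∧ v j₀ = 1 := by
    intro x
    obtain ⟨v, hv0, hv⟩ := h2 x
    have hj : v j₀ ≠ 0 := by
      intro hj
      apply hv0
      have e1 : ((SqueezeAbs_plus Φ j₀).map (ev x)) *ᵥ v = 0 := by
        rw [SqueezeAbs_plus_mulVec, hv, hj]
        funext i
        rcases i with i | i <;> rfl
      rw [hrec x v, e1, Matrix.mulVec_zero, Matrix.mulVec_zero]
    refine ⟨(v j₀)⁻¹ • v, ?_, ?_⟩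
    · rw [Matrix.mulVec_smul, hv, smul_zero]
    · simp [hj]
  refine ⟨(↑U⁻¹ : Matrix n n R) *ᵥ (Ψ *ᵥ (Sum.elim 0 (fun _ => 1) : m ⊕ Unit → R)), ?_, ?_⟩
  · funext i
    apply hev
    intro x
    obtain ⟨v, hv, hv1⟩ := hpt x
    have hvb := hb x v hv hv1
    rw [hvb, SqueezeAbs_map_mulVec] at hv
    exact congrFun hv i
  · rw [← sub_eq_zero]
    apply hev
    intro x
    obtain ⟨v, hv, hv1⟩ := hpt x
    have hvb := congrFun (hb x v hv hv1) j₀
    rw [hv1] at hvb
    rw [map_sub, map_one, sub_eq_zero]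
    exact hvb.symm

end

end Fermat.Agent.FF19.Nak
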