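/-
TEAM FF19 -> S19 (+ S32), block NAK (sub-architect helper8): the abstract commutative algebra toolkit used by
the blocks N, L, R.  File 1: definitions.  Only Mathlib.

SETTING.  `K` a field, `A : ValuationSubring K`, `s : Γ → K →+* K` a FAMILY of ring endomorphisms of `K`
(in the application `K = ℚ̄`, `Γ = ` the inertia group `I` of `A`, `s σ = σ`; no group structure is used)
acting trivially on the residue field of `A`, `ℓ` a uniformiser of the fixed field.
* `Oo A s`      : the subring `O = {a ∈ A | fixed by all s σ}` of `K`;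
* `FunI A s act`: for a set `X` with self maps `act σ`: the `O`-algebra of the functions `φ : X → K` with values in
                  `A` and `φ (act σ x) = s σ (φ x)`.
-/
import Mathlib

set_option autoImplicit false

noncomputable section

namespace Fermat.Agent.FF19.Nak

variable {K Γ : Type} [Field K]

/-- the setting: the `s σ` act trivially on the residue field of `A`, and `ℓ` is a uniformiser of the field of
invariants (shape of `ORD.Dep.Lvl`: `MR.Field.iLvl` gives it for the inertia group of `A` over `ℓ`). -/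
structure Setting (A : ValuationSubring K) (s : Γ → K →+* K) (ℓ : K) : Prop where
  triv : ∀ σ, ∀ a ∈ A, s σ a - a ∈ A.nonunits
  fix : ∀ σ, s σ ℓ = ℓ
  ne : ℓ ≠ 0
  sm : ℓ ∈ A.nonunits
  unif : ∀ a : K, a ≠ 0 → (∀ σ, s σ a = a) →
    ∃ n : ℤ, a * ℓ ^ (-n) ∈ A ∧ (a * ℓ ^ (-n))⁻¹ ∈ A

/-- `O = A ∩ K^Γ`. -/
def Oo (A : ValuationSubring K) (s : Γ → K →+* K) : Subring K where
  carrier := {a | a ∈ A ∧ ∀ σ, s σ a = a}
  mul_mem' := fun ha hb => ⟨A.mul_mem _ _ ha.1 hb.1, fun σ => by rw [map_mul, ha.2, hb.2]⟩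
  one_mem' := ⟨A.one_mem, fun σ => map_one _⟩
  add_mem' := fun ha hb => ⟨A.add_mem _ _ ha.1 hb.1, fun σ => by rw [map_add, ha.2, hb.2]⟩
  zero_mem' := ⟨A.zero_mem, fun σ => map_zero _⟩
  neg_mem' := fun ha => ⟨A.neg_mem _ ha.1, fun σ => by rw [map_neg, ha.2]⟩

lemma mem_Oo {A : ValuationSubring K} {s : Γ → K →+* K} {a : K} :
    a ∈ Oo A s ↔ a ∈ A ∧ ∀ σ, s σ a = a := Iff.rfl

/-- the `O`-algebra of the integral equivariant functions on `X`. -/
def FunI (A : ValuationSubring K) (s : Γ → K →+* K) {X : Type} (act : Γ → X → X) :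
    Subalgebra (Oo A s) (X → K) where
  carrier := {φ | (∀ x, φ x ∈ A) ∧ ∀ σ x, φ (act σ x) = s σ (φ x)}
  mul_mem' := fun ha hb => ⟨fun x => A.mul_mem _ _ (ha.1 x) (hb.1 x), fun σ x => by
    rw [Pi.mul_apply, Pi.mul_apply, map_mul, ha.2, hb.2]⟩
  add_mem' := fun ha hb => ⟨fun x => A.add_mem _ _ (ha.1 x) (hb.1 x), fun σ x => by
    rw [Pi.add_apply, Pi.add_apply, map_add, ha.2, hb.2]⟩
  algebraMap_mem' := fun c => ⟨fun _ => c.2.1, fun σ _ => (c.2.2 σ).symm⟩

lemma mem_FunI {A : ValuationSubring K} {s : Γ → K →+* K} {X : Type} {act : Γ → X → X}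
    {φ : X → K} :
    φ ∈ FunI A s act ↔ (∀ x, φ x ∈ A) ∧ ∀ σ x, φ (act σ x) = s σ (φ x) := Iff.rfl

lemma algebraMap_Oo_apply {A : ValuationSubring K} {s : Γ → K →+* K} {X : Type} (c : Oo A s)
    (x : X) : algebraMap (Oo A s) (X → K) c x = (c : K) := rfl

/-- all values of `φ` are in the maximal ideal of `A`. -/
def Sml (A : ValuationSubring K) {X : Type} (φ : X → K) : Prop := ∀ x, φ x ∈ A.nonunits

/-- all values of `φ` are units of `A`. -/
def Unt (A : ValuationSubring K) {X : Type} (φ : X → K) : Prop :=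
  ∀ x, φ x ∈ A ∧ φ x ∉ A.nonunits

/-- a set of functions separates the points. -/
def Sep {X : Type} (T : Set (X → K)) : Prop := ∀ x y : X, (∀ φ ∈ T, φ x = φ y) → x = y

lemma Sep.mono {X : Type} {T T' : Set (X → K)} (h : Sep T) (hT : T ⊆ T') : Sep T' :=
  fun x y hxy => h x y fun φ hφ => hxy φ (hT hφ)

/-- the characteristic polynomial `∏ (T - φ x)` of a function on a finite set. -/
def chi {X : Type} [Fintype X] (φ : X → K) : Polynomial K :=
  ∏ x, (Polynomial.X - Polynomial.C (φ x))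

/-- the discriminant `∏_{x ≠ y} (θ x - θ y)`. -/
def dsc {X : Type} [Fintype X] [DecidableEq X] (θ : X → K) : K :=
  ∏ x, ∏ y ∈ Finset.univ.erase x, (θ x - θ y)

/-- the generalised cross product of the `m` rows of an `m × (m + 1)` matrix (signed maximal minors). -/
def cross {R : Type} [CommRing R] {m : ℕ} (M : Matrix (Fin m) (Fin (m + 1)) R) (j : Fin (m + 1)) :
    R :=
  (-1) ^ (j : ℕ) * (M.submatrix id j.succAbove).det

end Fermat.Agent.FF19.Nak

end
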