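/-
TEAM FF19 -> S19 (+ S32), block NAK (sub-architect helper8).  File 2: INTERFACE.  Only Mathlib + `Nak/Defs.lean`.

Every `Stmt_xxx` is one work package: prove `theorem stmt_xxx : (deps →) Stmt_xxx` in `FF19/Nak/<xxx>.lean`.
CLIENTS (blocks N, L, R): cite the `Stmt_` as hypotheses; `Nak/All.lean` will contain the unconditional versions.

   for the clients:  Hensel (K1), Fin (K2: finiteness over O), Unit + Const (K3: `OO` is local), Nak, Rel, NakOne,
                     Split (K4: Nakayama forms), Squeeze (K5, Cramer form), Lag, FunFin, OBasic, ODvr.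
   OBasic ; ODvr ⟸ OBasic ; Chi ⟸ OBasic ; Fin ⟸ Chi ; Unit ⟸ Chi, OBasic ; Const ; Hensel ⟸ OBasic ; Theta ;
   Lag ⟸ OBasic ; FunFin ⟸ Theta, Lag, Fin, ODvr ; Nak ⟸ FunFin, Unit ; Rel ⟸ Nak, Unit ; NakOne ⟸ Nak ; Split ;
   Rows ; Cross ; CrossMap ; CrossNe ⟸ Cross ; CrossKer ⟸ Cross ; Squeeze ⟸ Rows, Cross, CrossMap, CrossNe, CrossKer.

API for `A.nonunits`: `ValuationSubring.mem_nonunits_iff_exists_mem_maximalIdeal`, `A.valuation_lt_one_iff`,
`A.valuation_le_one_iff`, `ValuationSubring.mem_nonunits_iff_or`-type lemmas; the cheapest way is usually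
`a ∈ A.nonunits ↔ A.valuation a < 1` and `a ∈ A ↔ A.valuation a ≤ 1`, `Valuation.map_add`, `map_mul`.
-/
import Fermat.Agent.FF19.Nak.Defs

set_option autoImplicit false

noncomputable section

namespace Fermat.Agent.FF19.Nak

open Polynomial

/-! ## the ring `O` -/

/-- K0. basic facts.
[(1) `s σ a = a + (s σ a - a)`.  (2) the same, `A.nonunits` is closed under addition.  (4) `c⁻¹ ∈ A` because `c` is a
unit of `A`; `s σ c⁻¹ = (s σ c)⁻¹` (`map_inv₀`).  (6) `unif` gives `n : ℤ` and the unit `u = c * ℓ ^ (-n)` of `A`,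
fixed by all `s σ` (`map_zpow₀`); `n ≥ 0` since otherwise `c⁻¹ = u⁻¹ * ℓ ^ (-n)` would be in `A.nonunits` while
`c ∈ A`.  (5) from (6): `N ≥ 1` (case `c = 0` apart).] -/
def Stmt_OBasic : Prop :=
  ∀ (K Γ : Type) [Field K] (A : ValuationSubring K) (s : Γ → K →+* K) (ℓ : K), Setting A s ℓ →
    (∀ σ, ∀ a ∈ A, s σ a ∈ A) ∧
    (∀ σ, ∀ a ∈ A.nonunits, s σ a ∈ A.nonunits) ∧
    ℓ ∈ Oo A s ∧
    (∀ c ∈ Oo A s, c ∉ A.nonunits → c⁻¹ ∈ Oo A s) ∧
    (∀ c ∈ Oo A s, c ∈ A.nonunits → ∃ c' ∈ Oo A s, c = ℓ * c') ∧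
    (∀ c ∈ Oo A s, c ≠ 0 → ∃ N : ℕ, ∃ u ∈ Oo A s, u⁻¹ ∈ Oo A s ∧ c = u * ℓ ^ N)

/-- K0'. `O` is a principal ideal domain (a DVR with uniformiser `ℓ`).
[`IsDiscreteValuationRing.ofHasUnitMulPowIrreducibleFactorization` with `p = ⟨ℓ, _⟩` and K0 (6); or directly: an ideal
`J ≠ 0` is generated by `ℓ ^ N`, `N` minimal (`Nat.find`) with `ℓ ^ N ∈ J`.] -/
def Stmt_ODvr : Prop :=
  ∀ (K Γ : Type) [Field K] (A : ValuationSubring K) (s : Γ → K →+* K) (ℓ : K), Setting A s ℓ →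
    IsPrincipalIdealRing (Oo A s)

/-! ## characteristic polynomials -/

/-- K2a. `χ_φ = ∏ (T - φ x)` has coefficients in `O`; they are in `𝔪_A` below the top if `φ` is small.
[coefficients in `A`: `chi φ` is the image of `P = ∏ (X - C ⟨φ x, _⟩) : A[X]` (`Polynomial.map_prod`).
Fixed: `(chi φ).map (s σ) = ∏ (X - C (φ (act σ x))) = chi φ` (`Function.Bijective.prod_comp`), `coeff_map`.
Small: `P.map (IsLocalRing.residue A) = X ^ card X`.] -/
def Stmt_Chi : Prop :=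
  ∀ (K Γ X : Type) [Field K] [Fintype X] (A : ValuationSubring K) (s : Γ → K →+* K) (ℓ : K)
    (act : Γ → X → X), Setting A s ℓ → (∀ σ, Function.Bijective (act σ)) →
    ∀ φ ∈ FunI A s act, (∀ n, (chi φ).coeff n ∈ Oo A s) ∧
      (Sml A φ → ∀ n < Fintype.card X, (chi φ).coeff n ∈ A.nonunits)

/-- K2b. integrality and finiteness over `O`.
[`chi φ` lifts to a monic `P : (Oo A s)[X]` (`Polynomial.lifts_and_natDegree_eq_and_monic`, or
`Polynomial.toSubring`), and `aeval φ P = 0` pointwise.  Then `fg_adjoin_of_finite`.] -/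
def Stmt_Fin : Prop :=
  ∀ (K Γ X : Type) [Field K] [Finite X] (A : ValuationSubring K) (s : Γ → K →+* K) (ℓ : K)
    (act : Γ → X → X), Setting A s ℓ → (∀ σ, Function.Bijective (act σ)) →
    (∀ φ ∈ FunI A s act, IsIntegral (Oo A s) φ) ∧
    ∀ T : Set (X → K), T.Finite → T ⊆ FunI A s act →
      (Subalgebra.toSubmodule (Algebra.adjoin (Oo A s) T)).FG

/-- K3a. UNIT: a function with unit values is invertible in `O[φ]`.
[`chi φ = X * Q + C c₀` (`Polynomial.divX_mul_X_add`), `c₀ = ± ∏ φ x` is in `O` (K2a) and a unit of `A`, so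
`c₀⁻¹ ∈ O` (K0); `Q` has coefficients in `O`; `φ x * Q (φ x) = - c₀`, so `(φ x)⁻¹ = - c₀⁻¹ * Q (φ x)`.] -/
def Stmt_Unit : Prop :=
  ∀ (K Γ X : Type) [Field K] [Finite X] (A : ValuationSubring K) (s : Γ → K →+* K) (ℓ : K)
    (act : Γ → X → X), Setting A s ℓ → (∀ σ, Function.Bijective (act σ)) →
    ∀ φ ∈ FunI A s act, Unt A φ → (fun x => (φ x)⁻¹) ∈ Algebra.adjoin (Oo A s) {φ}

/-- K3b. CONST: the elements of `O[small functions]` are constant modulo `𝔪_A`.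
[`Algebra.adjoin_induction`.] -/
def Stmt_Const : Prop :=
  ∀ (K Γ X : Type) [Field K] (A : ValuationSubring K) (s : Γ → K →+* K) (T : Set (X → K)),
    (∀ ρ ∈ T, Sml A ρ) → ∀ φ ∈ Algebra.adjoin (Oo A s) T,
    ∃ c ∈ Oo A s, ∀ x, φ x - c ∈ A.nonunits

/-! ## Hensel -/

/-- K1. HENSEL: a monic polynomial over `O` with a simple root modulo `𝔪_A` has a root in `O` lifting it, and it is
the only root in `K` congruent to `a`.
[`χ = ∏ (X - C u_j)` over the multiset of roots (`IsAlgClosed.splits`, `Polynomial.Splits...eq_prod_roots`).  The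
`u_j` are integral over `A`, so in `A` (`ValuationSubring` is integrally closed:
`Valuation.Integers.mem_of_integral` / `A.valuation.mem_of_integral`-type lemma, or by hand: if `v u > 1` then
`v (u ^ n) > v (lower terms)`).  `χ (a) = ∏ (a - u_j) ∈ 𝔪_A`: some `a - u ∈ 𝔪_A` (prime).  Write
`χ = (X - C u) * ψ`; `χ' (a) = ψ (a) + (a - u) ψ' (a)`, so `ψ (a) ∉ 𝔪_A`; a root `u' ≡ a` of `χ` satisfies
`(u' - u) ψ (u') = 0` and `ψ (u') ≡ ψ (a)` is not `0`: `u' = u`.  For `σ`: `s σ u` is a root of `χ.map (s σ) = χ` and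
`s σ u ≡ u ≡ a`: `s σ u = u`.] -/
def Stmt_Hensel : Prop :=
  ∀ (K Γ : Type) [Field K] [IsAlgClosed K] (A : ValuationSubring K) (s : Γ → K →+* K) (ℓ : K),
    Setting A s ℓ → ∀ χ : K[X], χ.Monic → (∀ n, χ.coeff n ∈ Oo A s) →
    ∀ a ∈ A, χ.eval a ∈ A.nonunits → χ.derivative.eval a ∉ A.nonunits →
    ∃ u ∈ Oo A s, χ.eval u = 0 ∧ u - a ∈ A.nonunits ∧
      ∀ u' : K, χ.eval u' = 0 → u' - a ∈ A.nonunits → u' = u

/-! ## Lagrange interpolation, finiteness of `FunI` -/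

/-- an additive group of functions separating the points of a finite set contains an injective function.
[enumerate the pairs `x ≠ y`: `φ_1, …, φ_r ∈ M`, `φ_i` separating the `i`-th pair; `θ_t = ∑ t ^ i • φ_i`, `t : ℕ`.
For each pair `P_{xy} = ∑ C (φ_i x - φ_i y) * X ^ i ≠ 0`; the product of the `P_{xy}` is `≠ 0`, so it has a non root
`t : ℕ` (`Polynomial.eq_zero_of_infinite_isRoot`, `Nat.cast_injective`).  Or B. H. Neumann's lemma in Mathlib.] -/
def Stmt_Theta : Prop :=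
  ∀ (K X : Type) [Field K] [CharZero K] [Finite X] (M : AddSubgroup (X → K)),
    Sep (M : Set (X → K)) → ∃ θ ∈ M, Function.Injective θ

/-- LAG (helper37): `d · FunI ⊆ O[θ]` for `θ` injective, `d = ∏_{x ≠ y} (θ x - θ y)`.
[`P = Lagrange.interpolate univ θ h`, `degree < card X`, `P (θ x) = h x`.  `P.map (s σ)` interpolates the same data
(`act σ` is onto), so it is `P` (`Lagrange.eq_interpolate_of_eval_eq` / uniqueness): coefficients fixed.
`C d * P = ∑ x, C (h x * ∏_{(y,z), y ≠ z, y ≠ x} (θ y - θ z)) * ∏_{y ≠ x} (X - C (θ y))` has coefficients in `A`.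
So `C d * P` has coefficients in `O`, and `d * h x = (C d * P) (θ x)`.  `d` is fixed: reindex by `act σ`.] -/
def Stmt_Lag : Prop :=
  ∀ (K Γ X : Type) [Field K] [Fintype X] [DecidableEq X] (A : ValuationSubring K)
    (s : Γ → K →+* K) (ℓ : K) (act : Γ → X → X), Setting A s ℓ →
    (∀ σ, Function.Bijective (act σ)) → ∀ θ ∈ FunI A s act, Function.Injective θ →
    dsc θ ∈ Oo A s ∧ dsc θ ≠ 0 ∧
      ∀ h ∈ FunI A s act, (fun x => dsc θ * h x) ∈ Algebra.adjoin (Oo A s) {θ}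

/-- K2. every `O`-submodule of `FunI` is finitely generated (if `FunI` separates the points).
[`θ ∈ FunI` injective (Theta).  `h ↦ d • h` is an injective `O`-linear map from `FunI` to `O[θ]`, which is a finitely
generated module (Fin) over the noetherian ring `O` (ODvr), so noetherian; `isNoetherian_of_injective`;
`isNoetherian_submodule`.] -/
def Stmt_FunFin : Prop :=
  ∀ (K Γ X : Type) [Field K] [CharZero K] [Finite X] (A : ValuationSubring K) (s : Γ → K →+* K)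
    (ℓ : K) (act : Γ → X → X), Setting A s ℓ → (∀ σ, Function.Bijective (act σ)) →
    Sep (FunI A s act : Set (X → K)) →
    ∀ E : Submodule (Oo A s) (X → K), E ≤ Subalgebra.toSubmodule (FunI A s act) → E.FG

/-! ## Nakayama -/

/-- K4. **NAKAYAMA**: `OO ⊆ E ⊆ FunI`, `E ⊆ OO + 𝔪 E` with `𝔪 = {μ ∈ OO | small}` ⇒ `E = OO`.
[`Submodule.le_of_le_smul_of_le_jacobson_bot` over the ring `↥OO`, module `X → K`, `N = ` range of `OO`, `N' = E` (an
`OO`-submodule), `I = {μ : OO | Sml A μ}`.  `E` is finitely generated over `O` (FunFin), so over `OO`.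
`I ≤ jacobson ⊥` (`Ideal.mem_jacobson_bot`): `μ * y + 1 ∈ OO ⊆ FunI` has unit values, its inverse is in
`O[μ y + 1] ⊆ OO` (Unit).] -/
def Stmt_Nak : Prop :=
  ∀ (K Γ X : Type) [Field K] [CharZero K] [Finite X] (A : ValuationSubring K) (s : Γ → K →+* K)
    (ℓ : K) (act : Γ → X → X), Setting A s ℓ → (∀ σ, Function.Bijective (act σ)) →
    Sep (FunI A s act : Set (X → K)) →
    ∀ OO E : Subalgebra (Oo A s) (X → K), OO ≤ E → E ≤ FunI A s act →
    (∀ e ∈ E, ∃ o ∈ OO, ∃ (r : ℕ) (μ ε : Fin r → X → K), (∀ i, μ i ∈ OO ∧ Sml A (μ i)) ∧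
      (∀ i, ε i ∈ E) ∧ e = o + ∑ i, μ i * ε i) → E = OO

/-- K4'. the form used in block L: `e₀ + e₁ ρ = 0`, `e₀ ∈ 𝔪_OO`, `e₁ ∈ OO[ρ]` with unit values ⇒ `ρ ∈ OO`.
[`E = OO[ρ]`.  `e₁⁻¹ ∈ O[e₁] ⊆ E` (Unit), `ρ = e₀ * (- e₁⁻¹)`.  Every `e ∈ E` is `o + ρ * e'`, `o ∈ OO`, `e' ∈ E`
(`Algebra.adjoin_induction`), `= o + e₀ * (- e₁⁻¹ * e')`.  Nak.] -/
def Stmt_Rel : Prop :=
  ∀ (K Γ X : Type) [Field K] [CharZero K] [Finite X] (A : ValuationSubring K) (s : Γ → K →+* K)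
    (ℓ : K) (act : Γ → X → X), Setting A s ℓ → (∀ σ, Function.Bijective (act σ)) →
    Sep (FunI A s act : Set (X → K)) →
    ∀ OO : Subalgebra (Oo A s) (X → K), OO ≤ FunI A s act → ∀ ρ ∈ FunI A s act,
    ∀ e₀ ∈ OO, Sml A e₀ → ∀ e₁ ∈ Algebra.adjoin (Oo A s) ((OO : Set (X → K)) ∪ {ρ}), Unt A e₁ →
    e₀ + e₁ * ρ = 0 → ρ ∈ OO

/-- K4''. the form used in (N2): `E = O + ρ E`, `ρ` small and injective ⇒ `E = O[ρ]`.  [Nak with `OO = O[ρ]`.] -/
def Stmt_NakOne : Prop :=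
  ∀ (K Γ X : Type) [Field K] [CharZero K] [Finite X] (A : ValuationSubring K) (s : Γ → K →+* K)
    (ℓ : K) (act : Γ → X → X), Setting A s ℓ → (∀ σ, Function.Bijective (act σ)) →
    ∀ ρ ∈ FunI A s act, Sml A ρ → Function.Injective ρ →
    ∀ E : Subalgebra (Oo A s) (X → K), E ≤ FunI A s act → ρ ∈ E →
    (∀ e ∈ E, ∃ c : Oo A s, ∃ e' ∈ E, e = algebraMap (Oo A s) (X → K) c + ρ * e') →
    E = Algebra.adjoin (Oo A s) {ρ}

/-- every element of `R[ρ]` is `c + ρ ψ`.  [`Algebra.adjoin_singleton_eq_range_aeval`,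
`Polynomial.divX_mul_X_add`.] -/
def Stmt_Split : Prop :=
  ∀ (R B : Type) [CommRing R] [CommRing B] [Algebra R B] (ρ : B), ∀ φ ∈ Algebra.adjoin R {ρ},
    ∃ c : R, ∃ ψ ∈ Algebra.adjoin R {ρ}, φ = algebraMap R B c + ρ * ψ

/-! ## SQUEEZE (Cramer form) -/

/-- S1. if the kernel of `M` has dimension `≤ 1` then `M` has `m` independent rows.
[`finrank (ker) ≤ 1`, `rank M ≥ m` (`LinearMap.finrank_range_add_finrank_ker` for `M.mulVecLin`),
`Matrix.rank_eq_finrank_span_row`, `Submodule.exists_fun_fin_finrank_span_eq` (independent rows spanning the row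
space), keep the first `m` (`Fin.castLE`).] -/
def Stmt_Rows : Prop :=
  ∀ (k : Type) [Field k] (r m : ℕ) (M : Matrix (Fin r) (Fin (m + 1)) k),
    (∀ v w : Fin (m + 1) → k, M.mulVec v = 0 → M.mulVec w = 0 →
      ∀ j j', v j * w j' - v j' * w j = 0) →
    ∃ e : Fin m → Fin r, LinearIndependent k (fun i => M (e i))

/-- S2. Laplace expansion.  [(1) `Matrix.det_succ_row_zero`.  (2) from (1) with `w = M i`: two equal rows
(`Matrix.det_zero_of_row_eq`).] -/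
def Stmt_Cross : Prop :=
  ∀ (R : Type) [CommRing R] (m : ℕ) (M : Matrix (Fin m) (Fin (m + 1)) R),
    (∀ w : Fin (m + 1) → R, (Matrix.of (Matrix.vecCons w M)).det = ∑ j, w j * cross M j) ∧
    ∀ i, ∑ j, M i j * cross M j = 0

/-- S2'. naturality.  [`RingHom.map_det`.] -/
def Stmt_CrossMap : Prop :=
  ∀ (R S : Type) [CommRing R] [CommRing S] (f : R →+* S) (m : ℕ)
    (M : Matrix (Fin m) (Fin (m + 1)) R) (j : Fin (m + 1)), f (cross M j) = cross (M.map f) j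

/-- S3. the cross product of independent rows is not `0`.
[the span of the rows has dimension `m < m + 1`: there is `w` outside; `linearIndependent_fin_cons`;
`Matrix.linearIndependent_rows_iff_isUnit`, `Matrix.isUnit_iff_isUnit_det`; S2 (1).] -/
def Stmt_CrossNe : Prop :=
  ∀ (k : Type) [Field k] (m : ℕ) (M : Matrix (Fin m) (Fin (m + 1)) k),
    LinearIndependent k (fun i => M i) → ∃ j, cross M j ≠ 0

/-- S4. if the cross product is not `0` it spans the kernel.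
[`u = cross M j₀ • v - v j₀ • cross M` is in the kernel (S2 (2)) and `u j₀ = 0`; `Fin.sum_univ_succAbove`:
`(M.submatrix id j₀.succAbove).mulVec (u ∘ j₀.succAbove) = 0`, determinant `≠ 0`:
`Matrix.eq_zero_of_mulVec_eq_zero`.] -/
def Stmt_CrossKer : Prop :=
  ∀ (k : Type) [Field k] (m : ℕ) (M : Matrix (Fin m) (Fin (m + 1)) k) (j₀ : Fin (m + 1)),
    cross M j₀ ≠ 0 → ∀ v : Fin (m + 1) → k, M.mulVec v = 0 →
    ∀ j, cross M j₀ * v j = v j₀ * cross M j

/-- K5. **SQUEEZE.**  `OO` a ring of `A`-valued functions on `X`, constant modulo `𝔪_A`; `Φ` a matrix over `OO`;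
at every point the kernel of `Φ_x` is `≠ 0`; modulo `𝔪_A` (at one point `x₀`) the kernel has dimension `≤ 1`.
Then there is `β ∈ OO ^ m` with `Φ β = 0`, one coordinate of `β` has unit values, and `β (x)` spans `ker Φ_x`.
[`m = m' + 1` (first hypothesis).  `k = IsLocalRing.ResidueField A`, `Φbar i j = residue (Φ i j x₀)`; lift vectors of
`k` to `A`: S1 gives `e`.  `M = Φ.submatrix e id`, `β = cross M` (computed in the ring `X → K`; it is in `OO`:
`Subring` closed under `det`: `Matrix.det_apply`, `Subring.sum_mem`, `prod_mem`; or map from `Matrix _ _ OO`, S2').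
`β j x = cross (M evaluated at x) j` (S2' with `Pi.evalRingHom`), `residue (β j x₀) = cross Mbar j` (S2'), S3: some
`β j₀ x₀ ∉ 𝔪_A`, so `β j₀ x ∉ 𝔪_A` for all `x`.  At `x`: `v ≠ 0` in `ker Φ_x ⊆ ker M_x`; S4:
`β j₀ x * v j = v j₀ * β j x`, so `v j₀ ≠ 0` and `β (x) = (β j₀ x / v j₀) • v ∈ ker Φ_x`.] -/
def Stmt_Squeeze : Prop :=
  ∀ (K X : Type) [Field K] [Nonempty X] (A : ValuationSubring K) (OO : Subring (X → K)),
    (∀ φ ∈ OO, ∀ x, φ x ∈ A) → (∀ φ ∈ OO, ∀ x y, φ x - φ y ∈ A.nonunits) →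
    ∀ (r m : ℕ) (Φ : Matrix (Fin r) (Fin m) (X → K)), (∀ i j, Φ i j ∈ OO) →
    (∀ x, ∃ v : Fin m → K, v ≠ 0 ∧ ∀ i, ∑ j, Φ i j x * v j = 0) →
    (∃ x₀, ∀ v w : Fin m → K, (∀ j, v j ∈ A) → (∀ j, w j ∈ A) →
      (∀ i, ∑ j, Φ i j x₀ * v j ∈ A.nonunits) → (∀ i, ∑ j, Φ i j x₀ * w j ∈ A.nonunits) →
      ∀ j j', v j * w j' - v j' * w j ∈ A.nonunits) →
    ∃ β : Fin m → X → K, (∀ j, β j ∈ OO) ∧ (∀ x i, ∑ j, Φ i j x * β j x = 0) ∧
      (∃ j, ∀ x, β j x ∉ A.nonunits) ∧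
      ∀ x (v : Fin m → K), (∀ i, ∑ j, Φ i j x * v j = 0) → ∃ c : K, ∀ j, v j = c * β j x

end Fermat.Agent.FF19.Nak

end
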