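/-
TEAM FF19 -> S19, block NAK: (K5) the SQUEEZE lemma.  Mathlib only.

`R` a ring of functions (jointly injective evaluations `ev x : R →+* K`), local with residue map `π : R →+* κ`.
A matrix `Φ` over `R` whose reduction has a kernel of dimension `≤ 1` and whose evaluations all have a non zero
kernel has a kernel vector `b` with a unit coordinate.
Proof: Nakayama for `R^n / rowspace`, no minors.
-/
import Mathlib

set_option autoImplicit false

namespace Fermat.Agent.FF19.Nak

open Matrix

/-- over a field: kernel of dimension `≤ 1` implies that the row space has codimension `≤ 1`. -/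
theorem Squeeze_field {κ m n : Type} [Field κ] [Fintype m] [Fintype n] (Ψ : Matrix m n κ)
    (h1 : ∃ a₀ : n → κ, ∀ v, Ψ *ᵥ v = 0 → ∃ c : κ, v = c • a₀) :
    ∃ e : n → κ, Submodule.span κ (Set.range Ψ.row) ⊔ Submodule.span κ {e} = ⊤ := by
  classical
  obtain ⟨a₀, ha₀⟩ := h1
  have hker : LinearMap.ker Ψ.mulVecLin ≤ Submodule.span κ {a₀} := by
    intro v hv
    obtain ⟨c, hc⟩ := ha₀ v (by simpa using hv)
    rw [Submodule.mem_span_singleton]
    exact ⟨c, hc.symm⟩
  have hk1 : Module.finrank κ (LinearMap.ker Ψ.mulVecLin) ≤ 1 := by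
    refine (Submodule.finrank_mono hker).trans ?_
    refine (finrank_span_le_card ({a₀} : Set (n → κ))).trans ?_
    simp
  have hrn := LinearMap.finrank_range_add_finrank_ker Ψ.mulVecLin
  have hW : Module.finrank κ (Submodule.span κ (Set.range Ψ.row))
      = Module.finrank κ (LinearMap.range Ψ.mulVecLin) := (Matrix.rank_eq_finrank_span_row Ψ).symm
  by_cases hT : Submodule.span κ (Set.range Ψ.row) = ⊤
  · exact ⟨0, by rw [hT]; simp⟩
  · obtain ⟨e, he⟩ : ∃ e, e ∉ Submodule.span κ (Set.range Ψ.row) := by
      by_contra hcon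
      push Not at hcon
      exact hT (Submodule.eq_top_iff'.2 hcon)
    refine ⟨e, Submodule.eq_top_of_finrank_eq ?_⟩
    have hlt : Submodule.span κ (Set.range Ψ.row)
        < Submodule.span κ (Set.range Ψ.row) ⊔ Submodule.span κ {e} := by
      refine lt_of_le_of_ne le_sup_left ?_
      intro h
      apply he
      rw [h]
      exact Submodule.mem_sup_right (Submodule.mem_span_singleton_self e)
    have h2 := Submodule.finrank_lt_finrank_of_lt hlt
    have h3 := Submodule.finrank_le
      (Submodule.span κ (Set.range Ψ.row) ⊔ Submodule.span κ {e})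
    omega

/-- (K5) SQUEEZE. -/
theorem squeeze {R κ K X m n : Type} [CommRing R] [Field κ] [Field K] [Fintype m] [Fintype n]
    [DecidableEq n] (π : R →+* κ) (hs : Function.Surjective π) (hu : ∀ a, π a ≠ 0 → IsUnit a)
    (ev : X → R →+* K) (hev : ∀ a, (∀ x, ev x a = 0) → a = 0) (Φ : Matrix m n R)
    (h1 : ∃ a₀ : n → κ, ∀ v, (Φ.map π) *ᵥ v = 0 → ∃ c : κ, v = c • a₀)
    (h2 : ∀ x, ∃ v : n → K, v ≠ 0 ∧ (Φ.map (ev x)) *ᵥ v = 0) :
    ∃ b : n → R, Φ *ᵥ b = 0 ∧ ∃ j, IsUnit (b j) := by
  classical
  obtain ⟨eb, heb⟩ := Squeeze_field (Φ.map π) h1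
  choose sec hsec using hs
  set e : n → R := fun j => sec (eb j) with he
  set Wr : Submodule R (n → R) := Submodule.span R (Set.range Φ.row) with hWr
  -- the kernel of `π` is in the Jacobson radical
  have hI : RingHom.ker π ≤ (⊥ : Ideal R).jacobson := by
    intro a ha
    rw [Ideal.mem_jacobson_bot]
    intro y
    apply hu
    rw [map_add, map_mul, (RingHom.mem_ker).1 ha, zero_mul, zero_add, map_one]
    exact one_ne_zero
  -- Nakayama
  have hle : (⊤ : Submodule R (n → R)) ≤ (Wr ⊔ Submodule.span R {e}) ⊔ RingHom.ker π • ⊤ := by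
    intro v _
    have hv : (fun j => π (v j)) ∈ Submodule.span κ (Set.range (Φ.map π).row)
        ⊔ Submodule.span κ {eb} := by rw [heb]; trivial
    obtain ⟨w, hw, z, hz, hwz⟩ := Submodule.mem_sup.1 hv
    obtain ⟨c, hc⟩ := (Submodule.mem_span_range_iff_exists_fun κ).1 hw
    obtain ⟨a, ha⟩ := Submodule.mem_span_singleton.1 hz
    set v' : n → R := v - (∑ i, sec (c i) • Φ.row i + sec a • e) with hv'
    have hv'0 : ∀ j, v' j ∈ RingHom.ker π := by
      intro j
      rw [RingHom.mem_ker, hv']
      have h3 := congrFun hwz j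
      rw [← hc, ← ha] at h3
      simp only [Pi.add_apply, Finset.sum_apply, Pi.smul_apply, smul_eq_mul, Matrix.row_apply,
        Matrix.map_apply] at h3
      simp only [Pi.sub_apply, Pi.add_apply, Finset.sum_apply, Pi.smul_apply, smul_eq_mul,
        Matrix.row_apply, map_sub, map_add, map_sum, map_mul, hsec, he]
      rw [h3, sub_self]
    have hv'm : v' ∈ RingHom.ker π • (⊤ : Submodule R (n → R)) := by
      rw [pi_eq_sum_univ v']
      refine Submodule.sum_mem _ fun j _ => ?_
      exact Submodule.smul_mem_smul (hv'0 j) trivial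
    have hvv : v = (∑ i, sec (c i) • Φ.row i + sec a • e) + v' := by rw [hv']; abel
    rw [hvv]
    refine Submodule.add_mem_sup (Submodule.add_mem_sup ?_ ?_) hv'm
    · refine Submodule.sum_mem _ fun i _ => Submodule.smul_mem _ _ ?_
      exact Submodule.subset_span ⟨i, rfl⟩
    · exact Submodule.smul_mem _ _ (Submodule.mem_span_singleton_self e)
  have htop : (⊤ : Submodule R (n → R)) ≤ Wr ⊔ Submodule.span R {e} :=
    Submodule.le_of_le_smul_of_le_jacobson_bot (Module.Finite.fg_top) hI hle
  -- the annihilator of the class of `e` is zero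
  have hJ : ∀ a : R, a • e ∈ Wr → a = 0 := by
    intro a ha
    apply hev
    intro x
    by_contra hax
    obtain ⟨v, hv0, hv⟩ := h2 x
    let S : Submodule R (n → R) :=
      { carrier := {u | ∑ j, ev x (u j) * v j = 0}
        add_mem' := by
          intro u u' hu hu'
          simp only [Set.mem_ofPred_eq, Pi.add_apply, map_add, add_mul, Finset.sum_add_distrib] at *
          rw [hu, hu', add_zero]
        zero_mem' := by simp
        smul_mem' := by
          intro r u hu
          simp only [Set.mem_ofPred_eq, Pi.smul_apply, smul_eq_mul, map_mul, mul_assoc,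
            ← Finset.mul_sum] at *
          rw [hu, mul_zero] }
    have hWS : Wr ≤ S := by
      rw [hWr, Submodule.span_le]
      rintro _ ⟨i, rfl⟩
      have := congrFun hv i
      show ∑ j, ev x (Φ.row i j) * v j = 0
      simpa [Matrix.mulVec, dotProduct] using this
    have haS : ∑ j, ev x ((a • e) j) * v j = 0 := hWS ha
    have heS : e ∈ S := by
      simp only [Pi.smul_apply, smul_eq_mul, map_mul, mul_assoc, ← Finset.mul_sum] at haS
      exact (mul_eq_zero.1 haS).resolve_left hax
    have hS : (⊤ : Submodule R (n → R)) ≤ S :=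
      htop.trans (sup_le hWS ((Submodule.span_singleton_le_iff_mem _ _).2 heS))
    apply hv0
    funext j
    have h3 : ∑ j', ev x ((Pi.single j (1 : R) : n → R) j') * v j' = 0 :=
      hS (trivial : (Pi.single j (1 : R) : n → R) ∈ (⊤ : Submodule R (n → R)))
    rw [Finset.sum_eq_single j] at h3
    · simpa using h3
    · intro j' _ hj'
      rw [Pi.single_eq_of_ne hj', map_zero, zero_mul]
    · intro h; exact absurd (Finset.mem_univ j) h
  -- the functional
  let φ : R →ₗ[R] ((n → R) ⧸ Wr) := Wr.mkQ.comp (LinearMap.toSpanSingleton R (n → R) e)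
  have hφ : ∀ a, φ a = Wr.mkQ (a • e) := fun a => rfl
  have hbij : Function.Bijective φ := by
    constructor
    · rw [injective_iff_map_eq_zero]
      intro a ha
      rw [hφ, Submodule.mkQ_apply, Submodule.Quotient.mk_eq_zero] at ha
      exact hJ a ha
    · intro y
      obtain ⟨v, rfl⟩ := Submodule.mkQ_surjective Wr y
      obtain ⟨w, hw, z, hz, hwz⟩ := Submodule.mem_sup.1 (htop (trivial : v ∈ ⊤))
      obtain ⟨a, ha⟩ := Submodule.mem_span_singleton.1 hz
      refine ⟨a, ?_⟩
      rw [hφ, ha, ← hwz, map_add, Submodule.mkQ_apply Wr w,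
        (Submodule.Quotient.mk_eq_zero Wr).2 hw, zero_add]
  let E := LinearEquiv.ofBijective φ hbij
  let β : (n → R) →ₗ[R] R := E.symm.toLinearMap.comp Wr.mkQ
  have hβ : ∀ u : n → R, β u = ∑ j, u j * β (Pi.single j 1) := by
    intro u
    have := LinearMap.pi_apply_eq_sum_univ β u
    rw [this]
    refine Finset.sum_congr rfl fun j _ => ?_
    rw [smul_eq_mul]
    congr 2
    funext j'
    by_cases h : j = j'
    · subst h; simp
    · rw [if_neg h, Pi.single_eq_of_ne (Ne.symm h)]
  have hβW : ∀ w ∈ Wr, β w = 0 := by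
    intro w hw
    show E.symm (Wr.mkQ w) = 0
    rw [Submodule.mkQ_apply, (Submodule.Quotient.mk_eq_zero Wr).2 hw, map_zero]
  have hβe : β e = 1 := by
    show E.symm (Wr.mkQ e) = 1
    rw [LinearEquiv.symm_apply_eq]
    show Wr.mkQ e = φ 1
    rw [hφ, one_smul]
  refine ⟨fun j => β (Pi.single j 1), ?_, ?_⟩
  · funext i
    have h3 := hβ (Φ.row i)
    rw [hβW _ (Submodule.subset_span ⟨i, rfl⟩)] at h3
    simpa [Matrix.mulVec, dotProduct] using h3.symm
  · by_contra hcon
    push Not at hcon
    have h4 : ∀ j, π (β (Pi.single j 1)) = 0 := by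
      intro j
      by_contra h
      exact hcon j (hu _ h)
    have h5 := congrArg π (hβ e)
    rw [hβe, map_one, map_sum] at h5
    rw [Finset.sum_eq_zero] at h5
    · exact one_ne_zero h5
    · intro j _
      rw [map_mul, h4 j, mul_zero]

end Fermat.Agent.FF19.Nak
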